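import Fermat.Agent.LT.T6.Spec

/-!
# Row LT, tower T6, leaf T6.14 `FLEllRamC` (fundamental lemma, `γ` elliptic, `k[γ]` RAMIFIED):
# SUB-SPEC (helper847), OFF-MAIN

Definitions + frozen sub-leaf Props.  The PROVED tops are in `EllRamTop.lean`:
`flEllRam_of_leaves : EllReduceC → EllOrbC → EllAlgC → T6.FLEllRamC` and
`ellOrb_of : CartanInvC → EllParamC → EllCountC → EllOrbC`.
Mathlib + `T6/Spec.lean` (helper22, sha256 `89f8f8b8…`) only.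

## The computation ([L] §5, elliptic ramified case; `k'/k` unramified of degree `l`, `Q = q ^ l`)

* `E = k[γ]` is a ramified quadratic extension: `E = k[Π]`, `Π² = τ Π - ν`, `ord ν = 1`,
  `ord τ ≥ 1`.  In the basis `(1, Π)` the element `a + b Π` is the matrix
  `embMat τ ν a b = [[a, -ν b], [b, a + τ b]]`; after conjugation `γ = γ₀ = α + β Π`, `β ≠ 0`, and
  after `s`-conjugation `δ = δ₀ = d₀ + d₁ Π ∈ E' = k'[Π]`, `N δ₀ = γ₀` (`EllReduceC`).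
* LATTICES.  `GL₂(k') = ⊔_n E'^× g_n GL₂(𝒪')`, `g_n = diag(1, νⁿ)` (the lattices of `E'` are the
  `x (𝒪' + νⁿ Π 𝒪')`); the twisted centraliser of `δ₀` is `E^×` (`T6.TwCentC`), its maximal compact
  subgroup is `𝒪_E^×`, the stabiliser of a lattice of level `n` in `𝒪_E^×` has index `qⁿ`.  Hence
  the weighted orbit sum is the PLAIN SUM over the lattices modulo `Π^ℤ`, i.e. over the
  `(n, ξ)`, `ξ ∈ 𝒪'/νⁿ𝒪'`, lattice `x_ξ g_n 𝒪'²`, `x_ξ = 1 + ξ Π` (`EllParamC`):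
  `TO_δ₀(Φ) = ∑_n ∑_{ξ mod νⁿ} Φ((x_ξ g_n)⁻¹ δ₀ s(x_ξ g_n))`.
* CARTAN INVARIANT.  For `z = a + b Π`: `cartan (g_n⁻¹ z g_n) = (ord N z - m, m)`,
  `m = min(ord a, ord b - n)`.
* COUNT (`EllCountC`).  `j = ord det δ₀`.  `j` odd: every lattice of level `n` has invariant
  `m = (j - 1)/2 - n`, and there are `Qⁿ` of them.  `j` even, `J = j/2`: for `z = x⁻¹ δ₀ s(x)`,
  `m = J - (n - c(ξ))⁺`, `c(ξ) = ord b_z - ord a_z`, and
  `#{ξ mod νⁿ : c(ξ) ≥ c} = Q^{n-c} q^c` for `c ≤ min(n, c_γ)`, `= 0` for `c_γ < c ≤ n`, where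
  `c_γ = ord β - ord α` (lifting `ν^c → ν^{c+1}`: additive Hilbert 90 in the residue field
  extension, and `N(1 + ν^c ζ Π) ≡ 1 + ν^c Tr(ζ) Π`).  Summing:
  `TO_δ₀(1_λ) = ellWeight Q λ j Θ`, `Θ = 1 + q + ⋯ + q^{c_γ}`.
* ALGEBRA (`EllAlgC`).  In terms of the coefficients `p_{a,b}` of `x^a y^b` in the Satake
  transform: `∑_λ f(λ) ellWeight q λ j Θ = ∑_{a > b, a + b = j} q^{-(a-b)/2} p_{a,b} + Θ p_{j/2,j/2}`;
  base change `x ↦ x^l` maps monomials to monomials, whence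
  `∑_λ f(λ) ellWeight q λ (l j) Θ = ∑_λ φ(λ) ellWeight (q^l) λ j Θ` for `f = b(φ)`.
* the untwisted side is the instance `k' = k`, `l = 1`, `s = id`, `δ₀ = γ₀` of `EllOrbC`.

The formulas of `EllCountC` and `EllAlgC` were checked numerically (brute force over
`ℚ₃(i)/ℚ₃`, `l = 2`, and exact Laurent polynomial arithmetic, `l ∈ {1,2,3,5}`).
-/

set_option autoImplicit false

open scoped Matrix

noncomputable section

namespace Fermat.Agent.LT.T6.H847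

open Fermat.Agent.LT.T6

/-! ## Definitions -/

/-- The additive valuation `ord x = - log v(x)` (`ord 0 = 0` by the convention of
`WithZero.log`). -/
def ord847 {k : Type} [Field k] [Valued k Γ₀] (x : k) : ℤ := - WithZero.log (Valued.v x)

/-- The matrix of the multiplication by `a + b Π` in the basis `(1, Π)` of `k[Π]`,
`Π² = τ Π - ν`. -/
def embMat {k : Type} [Field k] (τ ν a b : k) : Matrix (Fin 2) (Fin 2) k :=
  !![a, -(ν * b); b, a + τ * b]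

/-- The matrix `x_ξ g_n`, `x_ξ = 1 + ξ Π`, `g_n = diag(1, νⁿ)`: its columns `(1, ξ)` and
`νⁿ Π (1 + ξ Π)` span the lattice `(1 + ξ Π)(𝒪 + νⁿ Π 𝒪)`. -/
def latMat {k : Type} [Field k] (τ ν : k) (n : ℕ) (ξ : k) : Matrix (Fin 2) (Fin 2) k :=
  !![1, -(ν ^ (n + 1) * ξ); ξ, (1 + τ * ξ) * ν ^ n]

open Classical in
/-- `latMat` as an element of `GL₂` (`1` if the determinant `νⁿ (1 + τ ξ + ν ξ²)` vanishes, which
does not happen for `ξ` integral). -/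
def latGL {k : Type} [Field k] (τ ν : k) (n : ℕ) (ξ : k) : GL (Fin 2) k :=
  if h : (latMat τ ν n ξ).det ≠ 0 then Matrix.GeneralLinearGroup.mkOfDetNeZero _ h else 1

/-- `B` is a full system of representatives of `𝒪 / ϖⁿ 𝒪`. -/
def IsReprMod {k : Type} [Field k] [Valued k Γ₀] (n : ℕ) (B : Set k) : Prop :=
  (∀ b ∈ B, Valued.v b ≤ 1) ∧
    ∀ x : k, Valued.v x ≤ 1 → ∃! b : k, b ∈ B ∧ Valued.v (x - b) ≤ WithZero.exp (-(n : ℤ))

/-- `Θ = 1 + q + ⋯ + q^c` (`c ≥ 0`): the number of lattices fixed by `γ₀` modulo `Π^ℤ`, i.e. the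
volume of `E^× \ {x : x⁻¹ γ₀ x ∈ GL₂(𝒪)}`. -/
def theta (q : ℕ) (c : ℤ) : ℂ := ∑ n ∈ Finset.range (c.toNat + 1), (q : ℂ) ^ n

/-- The value at an elliptic ramified element (`ord det = j`, fixed lattices counted by `Θ`) of
the orbital integral of `1_{K λ K}`, residue field of `Q` elements:
`0` unless `λ₁ + λ₂ = j` and `λ₁ ≥ λ₂`; `j` odd: `Q^{(λ₁ - λ₂ - 1)/2}`; `j` even: `Θ` if
`λ₁ = λ₂`, and `Q^{(λ₁ - λ₂)/2 - 1} (1 + (Q - 1) Θ)` if `λ₁ > λ₂`. -/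
def ellWeight (Q : ℕ) (lam : ℤ × ℤ) (j : ℤ) (Θ : ℂ) : ℂ :=
  if lam.1 + lam.2 = j ∧ lam.2 ≤ lam.1 then
    if j % 2 = 1 then (Q : ℂ) ^ ((lam.1 - lam.2 - 1) / 2)
    else if lam.1 = lam.2 then Θ
    else (Q : ℂ) ^ ((lam.1 - lam.2) / 2 - 1) * (1 + ((Q : ℂ) - 1) * Θ)
  else 0

/-- THE NORMAL FORM.  `Π² = τ Π - ν` Eisenstein over `k` (`ord ν = 1`, `ord τ ≥ 1`),
`γ₀ = α + β Π ∈ GL₂(k)` with `β ≠ 0` (regular), `δ₀ = d₀ + d₁ Π ∈ GL₂(k')`, `N δ₀ = γ₀`. -/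
structure EllData (k k' : Type) [Field k] [Field k'] [Valued k Γ₀] [Valued k' Γ₀] (l : ℕ)
    (i : k →+* k') (s : k' ≃+* k') (τ ν α β : k) (d₀ d₁ : k') (γ₀ : GL (Fin 2) k)
    (δ₀ : GL (Fin 2) k') : Prop where
  val_ν : Valued.v ν = WithZero.exp (-1 : ℤ)
  val_τ : Valued.v τ < 1
  β_ne : β ≠ 0
  γ₀_eq : (γ₀ : Matrix (Fin 2) (Fin 2) k) = embMat τ ν α β
  δ₀_eq : (δ₀ : Matrix (Fin 2) (Fin 2) k') = embMat (i τ) (i ν) d₀ d₁
  norm_eq : twNorm s l δ₀ = Matrix.GeneralLinearGroup.map i γ₀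

/-! ## The sub-leaves -/

/-- **T6.14a (reduction to the normal form; algebra over fields + ONE use of completeness).**
`γ` regular, without eigenvalue in `k`, centralised by some `t` with `ord det t = 1`, and
`N δ ∼ γ`: then `γ` is conjugate to `γ₀ = α + β Π` and `δ` is `s`-conjugate to
`δ₀ = d₀ + d₁ Π` with `N δ₀ = γ₀`, where `Π² = τ Π - ν`, `τ = tr t`, `ν = det t`.
(`t` is not scalar (`ord det t` is odd), so `k[γ] = k[t]`, `γ = α + β t`, `β ≠ 0`; `t` has no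
eigenvalue in `k`, so `e₁, t e₁` is a basis, in which `t` is the companion matrix; `ord τ ≥ 1`:
otherwise `X² - τ X + ν` has a root in `k` (put `X = τ Y`, `Y = Y² + ν/τ²` is a contraction of
the maximal ideal); move `N δ` to `γ₀` by `N(x⁻¹ δ s(x)) = x⁻¹ N(δ) x`; then `δ` commutes with
`N δ = γ₀` (as `δ s(N δ) = N(δ) s^l(δ)`), and the centraliser of `γ₀` is `k' + k' Π`.) -/
def EllReduceC : Prop :=
  ∀ (k k' : Type) [Field k] [Field k'] [Valued k Γ₀] [Valued k' Γ₀] (q l : ℕ)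
    (i : k →+* k') (s : k' ≃+* k'),
    IsLocalField k q → IsLocalField k' (q ^ l) → IsLocalExt k k' l 1 i s →
    ∀ (δ : GL (Fin 2) k') (γ : GL (Fin 2) k), IsReg γ → ¬ HasEigen k γ → HasRamUnif k γ →
      IsConj (twNorm s l δ) (Matrix.GeneralLinearGroup.map i γ) →
      ∃ (τ ν α β : k) (d₀ d₁ : k') (γ₀ : GL (Fin 2) k) (δ₀ : GL (Fin 2) k'),
        EllData k k' l i s τ ν α β d₀ d₁ γ₀ δ₀ ∧ IsConj γ γ₀ ∧ IsTwConj s δ δ₀

/-- **T6.14b (parametrisation of the orbit sum by the lattices modulo `Π^ℤ`).**  For `δ₀` in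
normal form and `Φ` bi-invariant under `U = GL₂(𝒪')`: the twisted orbit sum of `Φ` at `δ₀` is
the plain sum of `Φ((x_ξ g_n)⁻¹ δ₀ s(x_ξ g_n))` over `n ≥ 0` and `ξ` in a system of
representatives of `𝒪'/νⁿ𝒪'` (only finitely many terms are not zero).
(`GL₂(k') = ⊔_n E'^× g_n U`; twisted centraliser of `δ₀` = `E^×`; `E^× = Π^ℤ × 𝒪_E^×`; the
`U`-`s`-classes in the `s`-conjugacy class of `δ₀` are the `E^×`-orbits of lattices; the weight
`cIndex = [𝒪_E^× : (𝒪 + νⁿ 𝒪_E)^×] = qⁿ` is the length of the `𝒪_E^×`-orbit in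
`𝒪_{E'}^× / (𝒪' + νⁿ 𝒪_{E'})^× = {1 + ξ Π : ξ mod νⁿ}`.) -/
def EllParamC : Prop :=
  ∀ (k k' : Type) [Field k] [Field k'] [Valued k Γ₀] [Valued k' Γ₀] (q l : ℕ)
    (i : k →+* k') (s : k' ≃+* k'),
    IsLocalField k q → IsLocalField k' (q ^ l) → IsLocalExt k k' l 1 i s →
    ∀ (τ ν α β : k) (d₀ d₁ : k') (γ₀ : GL (Fin 2) k) (δ₀ : GL (Fin 2) k'),
      EllData k k' l i s τ ν α β d₀ d₁ γ₀ δ₀ →
    ∀ (Φ : GL (Fin 2) k' → ℂ), IsBiInv (InU 0) Φ →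
    ∀ c : ℂ, IsTwOrbSum s 0 Φ δ₀ c →
    ∀ B : ℕ → Set k', (∀ n, IsReprMod n (B n)) →
      c = ∑ᶠ n : ℕ, ∑ᶠ ξ ∈ B n,
        Φ ((latGL (i τ) (i ν) n ξ)⁻¹ * δ₀ * glAut s (latGL (i τ) (i ν) n ξ))

/-- **T6.14c (the count).**  For `δ₀` in normal form:
`∑_n ∑_{ξ mod νⁿ} φ(cartan((x_ξ g_n)⁻¹ δ₀ s(x_ξ g_n))) = ∑_λ φ(λ) ellWeight Q λ (ord det δ₀) Θ`,
`Q = q ^ l`, `Θ = 1 + q + ⋯ + q^{ord β - ord α}`. -/
def EllCountC : Prop :=
  ∀ (k k' : Type) [Field k] [Field k'] [Valued k Γ₀] [Valued k' Γ₀] (q l : ℕ)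
    (i : k →+* k') (s : k' ≃+* k'),
    IsLocalField k q → IsLocalField k' (q ^ l) → IsLocalExt k k' l 1 i s →
    ∀ (τ ν α β : k) (d₀ d₁ : k') (γ₀ : GL (Fin 2) k) (δ₀ : GL (Fin 2) k'),
      EllData k k' l i s τ ν α β d₀ d₁ γ₀ δ₀ →
    ∀ (φ : (ℤ × ℤ) →₀ ℂ) (B : ℕ → Set k'), (∀ n, IsReprMod n (B n)) →
      (∑ᶠ n : ℕ, ∑ᶠ ξ ∈ B n,
        φ (cartan ((latGL (i τ) (i ν) n ξ)⁻¹ * δ₀ * glAut s (latGL (i τ) (i ν) n ξ))))
        = φ.sum fun lam a => a * ellWeight (q ^ l) lam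
            (ord847 (δ₀ : Matrix (Fin 2) (Fin 2) k').det) (theta q (ord847 β - ord847 α))

/-- **NODE: the twisted orbit sum of a spherical function at an element in normal form**
(= T6.14b + T6.14c + bi-invariance of `cartan`). -/
def EllOrbC : Prop :=
  ∀ (k k' : Type) [Field k] [Field k'] [Valued k Γ₀] [Valued k' Γ₀] (q l : ℕ)
    (i : k →+* k') (s : k' ≃+* k'),
    IsLocalField k q → IsLocalField k' (q ^ l) → IsLocalExt k k' l 1 i s →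
    ∀ (τ ν α β : k) (d₀ d₁ : k') (γ₀ : GL (Fin 2) k) (δ₀ : GL (Fin 2) k'),
      EllData k k' l i s τ ν α β d₀ d₁ γ₀ δ₀ →
    ∀ (φ : (ℤ × ℤ) →₀ ℂ) (c : ℂ), IsTwOrbSum s 0 (fun g => φ (cartan g)) δ₀ c →
      c = φ.sum fun lam a => a * ellWeight (q ^ l) lam
            (ord847 (δ₀ : Matrix (Fin 2) (Fin 2) k').det) (theta q (ord847 β - ord847 α))

/-- **T6.14d (comparison of the Satake coefficients; pure algebra).**  If `f = b(φ)` then for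
every `j` and `Θ`: `∑_λ f(λ) ellWeight q λ (l j) Θ = ∑_λ φ(λ) ellWeight (q^l) λ j Θ`.
(Closed form of `satake` (Macdonald), linear independence of the monomials `x^a y^b` on
`(ℂ^×)²`, e.g. `linearIndependent_monoidHom`; with `p_{a,b}` the coefficient of `x^a y^b` in the
Satake transform of `f`, `∑_λ f(λ) ellWeight q λ j Θ
  = ∑_{a > b, a + b = j} q^{-(a-b)/2} p_{a,b} + [2 ∣ j] Θ p_{j/2,j/2}`.) -/
def EllAlgC : Prop :=
  ∀ l q : ℕ, 0 < l → 1 < q → ∀ φ f : (ℤ × ℤ) →₀ ℂ, IsDominant φ → IsDominant f →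
    IsBC l q φ f →
    ∀ (j : ℤ) (Θ : ℂ),
      (f.sum fun lam a => a * ellWeight q lam ((l : ℤ) * j) Θ)
        = φ.sum fun lam a => a * ellWeight (q ^ l) lam j Θ

/-- **T6.14e (= helper288's T6.12i; proved by helper129 as `cartan_mul129`).**
`cartan (u g u') = cartan g` for `u, u' ∈ GL₂(𝒪)`. -/
def CartanInvC : Prop :=
  ∀ (k : Type) [Field k] [Valued k Γ₀] (u u' g : GL (Fin 2) k), InU 0 u → InU 0 u' →
    cartan (u * g * u') = cartan g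

end Fermat.Agent.LT.T6.H847

end
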