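import Fermat.Agent.LT.T6.H847.EllRamSpec

/-!
# Row LT, tower T6, leaf T6.14 `FLEllRamC`: the PROVED tops (helper847), OFF-MAIN

* `ellOrb_of : CartanInvC → EllParamC → EllCountC → EllOrbC`
* `flEllRam_of_leaves : EllReduceC → EllOrbC → EllAlgC → T6.FLEllRamC`
-/

set_option autoImplicit false

open scoped Matrix

noncomputable section

namespace Fermat.Agent.LT.T6.H847

open Fermat.Agent.LT.T6

/-! ### Existence of systems of representatives -/

/-- The congruence modulo `ϖⁿ` as a setoid. -/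
def congSetoid (k : Type) [Field k] [Valued k Γ₀] (n : ℕ) : Setoid k where
  r x y := Valued.v (x - y) ≤ WithZero.exp (-(n : ℤ))
  iseqv := by
    refine ⟨fun x => by simp, fun {x y} h => ?_, fun {x y z} h1 h2 => ?_⟩
    · rw [← Valuation.map_neg, neg_sub]; exact h
    · have : x - z = (x - y) + (y - z) := by ring
      rw [this]
      exact le_trans (Valuation.map_add _ _ _) (max_le h1 h2)

theorem exists_isReprMod (k : Type) [Field k] [Valued k Γ₀] (n : ℕ) :
    ∃ B : Set k, IsReprMod n B := by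
  classical
  let S := congSetoid k n
  have hle : WithZero.exp (-(n : ℤ)) ≤ (1 : Γ₀) := by
    rw [← WithZero.exp_zero]
    exact WithZero.exp_le_exp.mpr (by omega)
  have hout : ∀ x : k, Valued.v ((Quotient.mk S x).out - x) ≤ WithZero.exp (-(n : ℤ)) := by
    intro x
    have h := Quotient.mk_out (s := S) x
    exact h
  refine ⟨{b | Valued.v b ≤ 1 ∧ (Quotient.mk S b).out = b}, fun b hb => hb.1, ?_⟩
  intro x hx
  have hx' : Valued.v (x - (Quotient.mk S x).out) ≤ WithZero.exp (-(n : ℤ)) := by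
    rw [← Valuation.map_neg, neg_sub]; exact hout x
  refine ⟨(Quotient.mk S x).out, ⟨⟨?_, ?_⟩, hx'⟩, ?_⟩
  · have : (Quotient.mk S x).out = x + ((Quotient.mk S x).out - x) := by ring
    rw [this]
    exact le_trans (Valuation.map_add _ _ _) (max_le hx (le_trans (hout x) hle))
  · congr 1
    exact Quotient.out_eq _
  · rintro b ⟨⟨_, hb2⟩, hb3⟩
    rw [← hb2]
    congr 1
    exact Quotient.sound (by
      show Valued.v (b - x) ≤ _
      rw [← Valuation.map_neg, neg_sub]; exact hb3)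

/-! ### The node `EllOrbC` -/

theorem isBiInv_cartan (hc : CartanInvC) (k : Type) [Field k] [Valued k Γ₀]
    (φ : (ℤ × ℤ) →₀ ℂ) : IsBiInv (InU 0) (fun g : GL (Fin 2) k => φ (cartan g)) := by
  intro u u' g hu hu'
  show φ (cartan (u * g * u')) = φ (cartan g)
  rw [hc k u u' g hu hu']

/-- **NODE.**  `EllOrbC` from the parametrisation and the count. -/
theorem ellOrb_of (hc : CartanInvC) (hp : EllParamC) (hn : EllCountC) : EllOrbC := by
  intro k k' _ _ _ _ q l i s hk hk' hext τ ν α β d₀ d₁ γ₀ δ₀ hD φ c hsum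
  choose B hB using fun n : ℕ => exists_isReprMod k' n
  have h1 := hp k k' q l i s hk hk' hext τ ν α β d₀ d₁ γ₀ δ₀ hD
    (fun g => φ (cartan g)) (isBiInv_cartan hc k' φ) c hsum B hB
  rw [h1]
  exact hn k k' q l i s hk hk' hext τ ν α β d₀ d₁ γ₀ δ₀ hD φ B hB

/-! ### Small lemmas for the top -/

theorem isOrbSumGen_of_twConj {Γ : Type} [Group Γ] (s : Γ →* Γ) (U : Γ → Prop)
    (C : Γ → Γ → Prop) (φ : Γ → ℂ) (δ δ' : Γ) (c : ℂ) (g : Γ) (hg : δ' = g⁻¹ * δ * s g)
    (h : IsOrbSumGen s U C φ δ c) : IsOrbSumGen s U C φ δ' c := by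
  have key : ∀ y : Γ, (∃ x : Γ, y = x⁻¹ * δ' * s x) ↔ (∃ x : Γ, y = x⁻¹ * δ * s x) := by
    intro y
    constructor
    · rintro ⟨x, rfl⟩
      refine ⟨g * x, ?_⟩
      rw [hg, map_mul, mul_inv_rev]
      simp only [mul_assoc]
    · rintro ⟨x, rfl⟩
      refine ⟨g⁻¹ * x, ?_⟩
      rw [hg, map_mul, mul_inv_rev, inv_inv, map_inv]
      simp only [mul_assoc, mul_inv_cancel_left]
  obtain ⟨R, h1, h2, h3, h4⟩ := h
  exact ⟨R, fun y hy => (key y).mpr (h1 y hy), h2, fun y hy => h3 y ((key y).mp hy), h4⟩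

theorem glAut_refl (k : Type) [Field k] (g : GL (Fin 2) k) :
    glAut (RingEquiv.refl k) g = g := by
  apply Matrix.GeneralLinearGroup.ext
  intro a b
  simp [glAut]

theorem glMap_id (k : Type) [Field k] (g : GL (Fin 2) k) :
    Matrix.GeneralLinearGroup.map (RingHom.id k) g = g := by
  apply Matrix.GeneralLinearGroup.ext
  intro a b
  simp

theorem twNorm_one {R : Type} [CommRing R] (s : R ≃+* R) (δ : GL (Fin 2) R) :
    twNorm s 1 δ = δ := by
  simp [twNorm, twN]

theorem one_lt_of_isLocalField {k : Type} [Field k] [Valued k Γ₀] {q : ℕ}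
    (hk : IsLocalField k q) : 1 < q := by
  obtain ⟨T, hcard, -, -, hT⟩ := hk.residue
  obtain ⟨x₀, hx₀, h0⟩ := hT 0 (by simp)
  obtain ⟨x₁, hx₁, h1⟩ := hT 1 (by simp)
  rw [← hcard]
  refine Finset.one_lt_card.mpr ⟨x₀, hx₀, x₁, hx₁, ?_⟩
  rintro rfl
  have h0' : Valued.v x₀ < 1 := by
    rw [zero_sub, Valuation.map_neg] at h0; exact h0
  have : Valued.v (1 : k) < 1 := by
    have e : (1 : k) = (1 - x₀) + x₀ := by ring
    rw [e]
    exact lt_of_le_of_lt (Valuation.map_add _ _ _) (max_lt h1 h0')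
  simp at this

theorem val_det_twN {k' : Type} [Field k'] [Valued k' Γ₀] (s : k' ≃+* k')
    (hs : ∀ y : k', Valued.v (s y) = Valued.v y) (δ : GL (Fin 2) k') (n : ℕ) :
    Valued.v ((twN (glAut s) n δ : GL (Fin 2) k') : Matrix (Fin 2) (Fin 2) k').det
      = Valued.v ((δ : Matrix (Fin 2) (Fin 2) k').det) ^ n := by
  induction n with
  | zero => simp [twN]
  | succ n ih =>
    have h1 : ((glAut s (twN (glAut s) n δ) : GL (Fin 2) k') : Matrix (Fin 2) (Fin 2) k').det
        = s ((twN (glAut s) n δ : GL (Fin 2) k') : Matrix (Fin 2) (Fin 2) k').det := by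
      simp only [glAut]
      rw [Matrix.det_fin_two, Matrix.det_fin_two]
      simp [Matrix.GeneralLinearGroup.map_apply]
    simp only [twN, Matrix.GeneralLinearGroup.coe_mul, Matrix.det_mul, map_mul, h1, hs, ih]
    rw [pow_succ, mul_comm]

theorem ord_det_of_norm {k k' : Type} [Field k] [Field k'] [Valued k Γ₀] [Valued k' Γ₀]
    {l : ℕ} {i : k →+* k'} {s : k' ≃+* k'} (hext : IsLocalExt k k' l 1 i s)
    {γ₀ : GL (Fin 2) k} {δ₀ : GL (Fin 2) k'}
    (h : twNorm s l δ₀ = Matrix.GeneralLinearGroup.map i γ₀) :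
    ord847 (γ₀ : Matrix (Fin 2) (Fin 2) k).det
      = (l : ℤ) * ord847 (δ₀ : Matrix (Fin 2) (Fin 2) k').det := by
  have h1 := val_det_twN s hext.val_s δ₀ l
  have h2 : ((twN (glAut s) l δ₀ : GL (Fin 2) k') : Matrix (Fin 2) (Fin 2) k').det
      = i (γ₀ : Matrix (Fin 2) (Fin 2) k).det := by
    have : twN (glAut s) l δ₀ = Matrix.GeneralLinearGroup.map i γ₀ := h
    rw [this]
    rw [Matrix.det_fin_two, Matrix.det_fin_two]
    simp [Matrix.GeneralLinearGroup.map_apply]
  rw [h2, hext.val_i, pow_one] at h1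
  unfold ord847
  rw [h1, WithZero.log_pow]
  simp

/-! ### The top -/

/-- **TOP of T6.14.**  The fundamental lemma in the elliptic ramified case from the sub-leaves. -/
theorem flEllRam_of_leaves (h1 : EllReduceC) (h2 : EllOrbC) (h3 : EllAlgC) : FLEllRamC := by
  intro k k' _ _ _ _ q l i s hk hk' hext hl φ f hφ hf hbc δ γ c c' hreg hP hconj hc hc'
  obtain ⟨hne, hram⟩ := hP
  obtain ⟨τ, ν, α, β, d₀, d₁, γ₀, δ₀, hD, hγ, hδ⟩ :=
    h1 k k' q l i s hk hk' hext δ γ hreg hne hram hconj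
  -- the twisted side
  obtain ⟨x, hx⟩ := hδ
  have hc₀ : IsTwOrbSum s 0 (fun g => φ (cartan g)) δ₀ c :=
    isOrbSumGen_of_twConj _ _ _ _ δ δ₀ c x hx hc
  have e1 := h2 k k' q l i s hk hk' hext τ ν α β d₀ d₁ γ₀ δ₀ hD φ c hc₀
  -- the untwisted side: `k' = k`, `l = 1`, `s = id`
  have hk1 : IsLocalField k (q ^ 1) := by rw [pow_one]; exact hk
  have hext1 : IsLocalExt k k 1 1 (RingHom.id k) (RingEquiv.refl k) :=
    { cyc :=
        { pos := Nat.one_pos
          fix_i := fun _ => rfl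
          fixed := fun y _ => ⟨y, rfl⟩
          order := fun _ => rfl
          faithful := fun m h0 h1 => by omega }
      e_pos := Nat.one_pos
      val_i := fun x => by simp
      val_s := fun _ => rfl }
  have hD1 : EllData k k 1 (RingHom.id k) (RingEquiv.refl k) τ ν α β α β γ₀ γ₀ :=
    { val_ν := hD.val_ν
      val_τ := hD.val_τ
      β_ne := hD.β_ne
      γ₀_eq := hD.γ₀_eq
      δ₀_eq := by simpa using hD.γ₀_eq
      norm_eq := by rw [twNorm_one, glMap_id] }
  obtain ⟨g, hg⟩ := isConj_iff.mp hγ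
  have hc'₀ : IsTwOrbSum (RingEquiv.refl k) 0 (fun g => f (cartan g)) γ₀ c' := by
    refine isOrbSumGen_of_twConj _ _ _ _ γ γ₀ c' g⁻¹ ?_ hc'
    rw [glAut_refl, inv_inv]
    exact hg.symm
  have e2 := h2 k k q 1 (RingHom.id k) (RingEquiv.refl k) hk hk1 hext1 τ ν α β α β γ₀ γ₀ hD1
    f c' hc'₀
  rw [pow_one] at e2
  rw [e1, e2, ord_det_of_norm hext hD.norm_eq]
  exact (h3 l q hext.cyc.pos (one_lt_of_isLocalField hk) φ f hφ hf hbc _ _).symm

end Fermat.Agent.LT.T6.H847

end
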